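import Fermat.Agent.S44.ELocal.Frey
import Fermat.Agent.Lib.Ell.Main
import Fermat.Agent.S13.FreyTorsion

/-!
# MR / E : `Ep P`, cardinality, E-GLOB, E-LOC
-/

set_option autoImplicit false

namespace Fermat.Agent.MR.E

open Fermat.Agent.S44 Fermat.Agent.S44.ELocal
open WeierstrassCurve WeierstrassCurve.Affine WeierstrassCurve.Affine.Point

/-- `E(ℚ̄)[p]`. -/
abbrev Ep (P : FreyPackage) : Type := Submodule.torsionBy ℤ (P.freyCurve⁄Qb).Point P.p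

theorem card_Ep (P : FreyPackage) : Nat.card (Ep P) = P.p ^ 2 :=
  Lib.Ell.card_torsionBy_rat P.freyCurve (S13.frey_Δ_ne_zero P) P.p P.pp.pos

theorem card_Ep' (P : FreyPackage) :
    Nat.card {y : (P.freyCurve⁄Qb).Point // P.p • y = 0} = P.p ^ 2 :=
  Lib.Ell.card_nsmul_eq_zero_rat P.freyCurve (S13.frey_Δ_ne_zero P) P.p P.pp.pos

theorem Ep_nsmul (P : FreyPackage) (x : Ep P) : P.p • (x : (P.freyCurve⁄Qb).Point) = 0 := by
  have h := x.2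
  rw [Submodule.mem_torsionBy_iff, natCast_zsmul] at h
  exact h

/-- a `p`-torsion point as an element of `Ep P`. -/
def toEp (P : FreyPackage) (x : (P.freyCurve⁄Qb).Point) (hx : P.p • x = 0) : Ep P :=
  ⟨x, by rw [Submodule.mem_torsionBy_iff, natCast_zsmul]; exact hx⟩

/-- **E-GLOB**. -/
theorem E_GLOB (P : FreyPackage) (W : WeierstrassCurve ℤ) (hW : W.IsIntegralModelOf P.freyCurve) :
    ∃ S : Finset ℕ, ∀ ℓ : ℕ, ℓ.Prime → ℓ ∉ S →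
      ∀ 𝒜 : ValuationSubring Qb, 𝒜.LiesOverPrime ℓ →
      ∀ σ : GQ, 𝒜.IsFrobeniusAt σ ℓ →
        ∀ x : Ep P, σ • σ • x - (W.apOfModel ℓ) • σ • x + (ℓ : ℤ) • x = 0 := by
  obtain ⟨S, hS⟩ := Lib.Ell.frob_rel P.freyCurve (S13.frey_Δ_ne_zero P) W hW P.p P.pp.pos
  refine ⟨S, fun ℓ hℓ hℓS 𝒜 h𝒜 σ hσ x => ?_⟩
  exact Subtype.ext (hS ℓ hℓ hℓS 𝒜 h𝒜 σ hσ x (Ep_nsmul P x))

/-- **E-LOC**. -/
theorem E_LOC (P : FreyPackage) (A : ValuationSubring Qb) (hA : A.LiesOverPrime P.p)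
    (hdvd : (P.p : ℤ) ∣ P.a * P.b * P.c) : LocalConcl P.freyCurve A P.p :=
  frey_local P A hA hdvd

end Fermat.Agent.MR.E
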