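import Fermat.Agent.MR.E.CycB

/-!
# MR / E : `a ∈ K₀`, `v a = v b ^ p` with `b ∈ K₁` ⟹ `p ∣ v(a)`
-/

set_option autoImplicit false

namespace Fermat.Agent.MR.E

open Fermat.Agent.S44 Fermat.Agent.S36R

variable (A : ValuationSubring Qb) {p : ℕ} (hp : p.Prime) (hA : A.LiesOverPrime p)

include hp hA

/-- LEAF CY-C.  `v a = v p ^ n` (`K0L.exists_zpow'`), `v b ^ r = v p ^ m` (`exists_pow_val_eq`),
`s r + t p = 1` (`Nat.Coprime`, Bézout in `ℤ`) ⟹ `v b = v b ^ (s r + t p) = v p ^ (s m + t n)`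
(`zpow` calculus in the group with zero; `v b ≠ 0`). -/
theorem val_eq_zpow_of_pow {ζ : Qb} (hζ : IsPrimitiveRoot ζ p) {a b : Qb} (ha0 : a ≠ 0)
    (ha : ∀ σ ∈ A.inertiaSubgroupIn ℚ, σ a = a)
    (hb : ∀ σ ∈ A.inertiaSubgroupIn ℚ, σ ζ = ζ → σ b = b)
    (hab : A.valuation a = A.valuation b ^ p) :
    ∃ n : ℤ, A.valuation a = A.valuation (p : Qb) ^ ((p : ℤ) * n) := by
  have hb0 : b ≠ 0 := by
    rintro rfl
    rw [map_zero, zero_pow hp.ne_zero] at hab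
    exact ha0 ((map_eq_zero _).1 hab)
  have hvb : A.valuation b ≠ 0 := (Valuation.ne_zero_iff _).2 hb0
  have hp0 : (p : Qb) ≠ 0 := by exact_mod_cast hp.ne_zero
  have hvp : A.valuation (p : Qb) ≠ 0 := (Valuation.ne_zero_iff _).2 hp0
  obtain ⟨n, hn⟩ := K0L.exists_zpow' A hp hA
    ((IntermediateField.mem_fixedField_iff _ _).2 ha) ha0
  obtain ⟨r, hr0, hrp, m, hm⟩ := exists_pow_val_eq A hp hA hζ hb0 hb
  have hcop : Nat.Coprime r p :=
    (Nat.coprime_comm.1 ((Nat.Prime.coprime_iff_not_dvd hp).2 (Nat.not_dvd_of_pos_of_lt hr0 hrp)))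
  have hbez := Int.gcd_eq_gcd_ab (r : ℤ) (p : ℤ)
  rw [Int.gcd_natCast_natCast, hcop.gcd_eq_one, Nat.cast_one] at hbez
  set s := Int.gcdA (r : ℤ) (p : ℤ)
  set t := Int.gcdB (r : ℤ) (p : ℤ)
  have h1 : A.valuation b = A.valuation (p : Qb) ^ (m * s + n * t) := by
    calc A.valuation b = A.valuation b ^ ((r : ℤ) * s + (p : ℤ) * t) := by rw [← hbez, zpow_one]
      _ = (A.valuation b ^ r) ^ s * (A.valuation b ^ p) ^ t := by
          rw [zpow_add₀ hvb, zpow_mul, zpow_mul, zpow_natCast, zpow_natCast]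
      _ = A.valuation (p : Qb) ^ (m * s + n * t) := by
          rw [hm, ← hab, hn, zpow_add₀ hvp, zpow_mul, zpow_mul]
  refine ⟨m * s + n * t, ?_⟩
  rw [hab, h1, ← zpow_natCast, ← zpow_mul, mul_comm]

end Fermat.Agent.MR.E
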