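import Fermat.Agent.S44.Defs
import Fermat.Agent.S44.ELocal.Roots
import Fermat.Agent.S36R.K0.BlockL

/-!
# MR / E : inertia at `p` acts non-trivially on `μ_p`

`A` a valuation subring of `Qb` over the prime `p`, `I = A.inertiaSubgroupIn ℚ`, `K₀ = Qb^I`.
-/

set_option autoImplicit false

namespace Fermat.Agent.MR.E

open Fermat.Agent.S44 Fermat.Agent.S36R

variable (A : ValuationSubring Qb) {p : ℕ} (hp : p.Prime) (hA : A.LiesOverPrime p)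

include hp hA

/-- LEAF CY-A.  Otherwise `ζ - 1 ∈ K₀` (`IntermediateField.mem_fixedField_iff`), it is a non-unit
(`ELocal.val_p_lt_val_zeta_sub_one`: `v p < v (ζ - 1) < 1`; `v p < 1` is `hA` unfolded, see the first
lines of `S44.ELocal.frey_local`), so `(ζ - 1) / p ∈ A` by `K0L.div_mem'`, i.e. `v (ζ - 1) ≤ v p`. -/
theorem exists_inertia_moves (hp2 : p ≠ 2) {ζ : Qb} (hζ : IsPrimitiveRoot ζ p) :
    ∃ τ ∈ A.inertiaSubgroupIn ℚ, τ ζ ≠ ζ := by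
  by_contra hcon
  push Not at hcon
  have hvp : A.valuation ((p : ℕ) : Qb) < 1 := A.mem_nonunits_iff.mp hA
  obtain ⟨h1, h2⟩ := ELocal.val_p_lt_val_zeta_sub_one A.valuation hp hζ hp2 hvp
  have hfix : ζ - 1 ∈ IntermediateField.fixedField (A.inertiaSubgroupIn ℚ) := by
    rw [IntermediateField.mem_fixedField_iff]
    intro τ hτ
    rw [map_sub, map_one, hcon τ hτ]
  have h3 := K0L.div_mem' A hp hA hfix ((ValuationSubring.mem_nonunits_iff A).2 h2)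
  have h0 : A.valuation ((p : ℕ) : Qb) ≠ 0 := by
    rw [Ne, map_eq_zero]
    exact_mod_cast hp.ne_zero
  rw [← A.valuation_le_one_iff, map_div₀, div_le_one₀ (zero_lt_iff.2 h0)] at h3
  exact absurd h1 (not_lt.2 h3)

/-- some `τ ∈ I` acts on `μ_p` by `ζ ↦ ζ^c`, `c ≢ 0, 1 mod p`.
LEAF CT-A (~30 lines): `exists_inertia_moves`; `(τ ζ)^p = 1` ⟹ `τ ζ = ζ ^ c`, `c < p`
(`IsPrimitiveRoot.eq_pow_of_pow_eq_one`); `c ≠ 0` (`τ ζ = 1 = τ 1` ⟹ `ζ = 1`), `c ≠ 1`. -/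
theorem exists_tau (hp2 : p ≠ 2) {ζ : Qb} (hζ : IsPrimitiveRoot ζ p) :
    ∃ τ ∈ A.inertiaSubgroupIn ℚ, ∃ c : ℕ, 1 < c ∧ c < p ∧ τ ζ = ζ ^ c := by
  have : NeZero p := ⟨hp.ne_zero⟩
  obtain ⟨τ, hτ, hne⟩ := exists_inertia_moves A hp hA hp2 hζ
  have hζp : (τ ζ) ^ p = 1 := by rw [← map_pow, hζ.pow_eq_one, map_one]
  obtain ⟨c, hcp, hc⟩ := hζ.eq_pow_of_pow_eq_one hζp
  have hc0 : c ≠ 0 := by
    rintro rfl
    rw [pow_zero] at hc
    have h1 : τ ζ = τ 1 := by rw [map_one, ← hc]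
    exact hζ.ne_one hp.one_lt (τ.injective h1)
  have hc1 : c ≠ 1 := by
    rintro rfl
    rw [pow_one] at hc
    exact hne hc.symm
  exact ⟨τ, hτ, c, by omega, hcp, hc.symm⟩

end Fermat.Agent.MR.E
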