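import Fermat.Agent.MR.E.Base
import Fermat.Agent.MR.E.CycA

/-!
# MR / E : (E1)
-/

set_option autoImplicit false

namespace Fermat.Agent.MR.E

open Fermat.Agent.S44 Fermat.Agent.S44.ELocal
open WeierstrassCurve WeierstrassCurve.Affine WeierstrassCurve.Affine.Point

/-- **(E1)**.  LEAF CT-B (~60 lines): `ζ` a primitive `p`-th root of unity
(
`HasEnoughRootsOfUnity.exists_primitiveRoot Qb P.p` with `NeZero P.p`), `τ, c` from `exists_tau`.
For `x ∈ E[p]`: `(c - 1) • x = τ • x - x ∈ L` (`(E_LOC ..).main`), and `u (c - 1) ≡ 1 mod p`, so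
`x ∈ L`; hence `p² = #E[p] ≤ #L = p` (`card_Ep'`, `Nat.card_le_card_of_injective`;
`L` is finite since `Nat.card L = p ≠ 0`). -/
theorem E1 (P : FreyPackage) (A : ValuationSubring Qb) (hA : A.LiesOverPrime P.p)
    (hdvd : (P.p : ℤ) ∣ P.a * P.b * P.c) :
    ¬ ∀ τ ∈ A.inertiaSubgroupIn ℚ, ∀ (ζ : Qb) (c : ℕ), IsPrimitiveRoot ζ P.p → τ ζ = ζ ^ c →
      ∀ x : Ep P, τ • x = c • x := by
  intro H
  have hp : P.p.Prime := P.pp
  have hp2 : P.p ≠ 2 := by have := P.hp5; omega
  have : NeZero P.p := ⟨hp.ne_zero⟩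
  obtain ⟨ζ, hζ⟩ := HasEnoughRootsOfUnity.exists_primitiveRoot Qb P.p
  obtain ⟨τ, hτ, c, hc1, hcp, hτζ⟩ := exists_tau A hp hA hp2 hζ
  obtain ⟨L, -, hLcard, hLmain, -⟩ := (E_LOC P A hA hdvd).main
  have hcop : Nat.Coprime (c - 1) P.p :=
    (Nat.coprime_of_lt_prime (by omega) (by omega) hp).symm
  obtain ⟨u, -, hu⟩ := Nat.exists_mul_mod_eq_one_of_coprime hcop hp.one_lt
  have hdm : (c - 1) * u = P.p * ((c - 1) * u / P.p) + 1 := by
    have := Nat.div_add_mod ((c - 1) * u) P.p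
    omega
  have hmem : ∀ y : (P.freyCurve⁄Qb).Point, P.p • y = 0 → y ∈ L := by
    intro y hy
    have h1 : τ • y = c • y := congrArg Subtype.val (H τ hτ ζ c hζ hτζ (toEp P y hy))
    have h2 : (c - 1) • y ∈ L := by
      have h3 := hLmain τ hτ y hy
      rw [h1] at h3
      have h4 : c • y - y = (c - 1) • y := by
        have h5 : c = (c - 1) + 1 := by omega
        conv_lhs => rw [h5, add_smul, one_smul]
        exact add_sub_cancel_right _ _
      rwa [h4] at h3
    have h6 : u • (c - 1) • y ∈ L := L.nsmul_mem h2 u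
    rw [smul_smul, mul_comm u, hdm, add_smul, one_smul, mul_comm P.p, mul_smul, hy, nsmul_zero,
      zero_add] at h6
    exact h6
  have : Finite L := Nat.finite_of_card_ne_zero (by rw [hLcard]; exact hp.ne_zero)
  have hle : Nat.card {y : (P.freyCurve⁄Qb).Point // P.p • y = 0} ≤ Nat.card L :=
    Nat.card_le_card_of_injective (fun y => (⟨y.1, hmem y.1 y.2⟩ : L)) (fun y y' h =>
      Subtype.ext (Subtype.mk.inj h))
  rw [card_Ep', hLcard] at hle
  have h7 : P.p < P.p ^ 2 := by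
    have := hp.one_lt
    nlinarith
  omega

end Fermat.Agent.MR.E
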