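import Mathlib

/-!
# MR / E : a group of order `p²` killed by `p` is generated by a line and a point outside (Mathlib only)
-/

set_option autoImplicit false

namespace Fermat.Agent.MR.E

theorem Gen_zsmul_eq_nsmul {G : Type*} [AddCommGroup G] {p : ℕ} (hp : p.Prime) {x : G}
    (hx : p • x = 0) (k : ℤ) : ∃ n : ℕ, k • x = n • x := by
  have hp0 : (0 : ℤ) < p := by exact_mod_cast hp.pos
  refine ⟨(k % p).toNat, ?_⟩
  have h1 : ((k % p).toNat : ℤ) = k % p := Int.toNat_of_nonneg (Int.emod_nonneg _ hp0.ne')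
  rw [← natCast_zsmul, h1]
  conv_lhs => rw [← Int.emod_add_mul_ediv k p]
  rw [add_zsmul, mul_comm, mul_zsmul, natCast_zsmul, hx, zsmul_zero, add_zero]

/-- LEAF GN.  `T := {y | p • y = 0}` as an `AddSubgroup`, `H := L ⊔ zmultiples x ≤ T`.
`#L = p ∣ #H ∣ #T = p²` (`AddSubgroup.card_dvd_of_le`), `#H ≠ p` (else `L = H ∋ x`:
`AddSubgroup.eq_of_le_of_card_ge`), so `#H = p²` (`Nat.dvd_prime_pow`) and `H = T`.
`AddSubgroup.mem_sup`, `AddSubgroup.mem_zmultiples_iff`; replace the integer `n` by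
`(n % p).toNat` (`p • x = 0`). -/
theorem exists_eq_add_nsmul {G : Type*} [AddCommGroup G] {p : ℕ} (hp : p.Prime)
    (hcard : Nat.card {y : G // p • y = 0} = p ^ 2) (L : AddSubgroup G)
    (hL : ∀ T ∈ L, p • T = 0) (hLc : Nat.card L = p) {x : G} (hx : p • x = 0) (hxL : x ∉ L)
    (y : G) (hy : p • y = 0) : ∃ l ∈ L, ∃ n : ℕ, y = l + n • x := by
  set T : AddSubgroup G := (nsmulAddMonoidHom (α := G) p).ker with hT
  have hmemT : ∀ z : G, z ∈ T ↔ p • z = 0 := fun z => by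
    rw [hT, AddMonoidHom.mem_ker]; rfl
  have hTc : Nat.card T = p ^ 2 := by
    rw [← hcard]
    exact Nat.card_congr (Equiv.subtypeEquivRight hmemT)
  have hTfin : Finite T := Nat.finite_of_card_ne_zero (by rw [hTc]; exact pow_ne_zero _ hp.ne_zero)
  set H : AddSubgroup G := L ⊔ AddSubgroup.zmultiples x with hH
  have hLH : L ≤ H := le_sup_left
  have hxH : x ∈ H := (le_sup_right : AddSubgroup.zmultiples x ≤ H) (AddSubgroup.mem_zmultiples x)
  have hHT : H ≤ T := by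
    refine sup_le (fun z hz => (hmemT z).2 (hL z hz)) ?_
    rw [AddSubgroup.zmultiples_le]
    exact (hmemT x).2 hx
  have hHfin : Finite H := Finite.of_injective (AddSubgroup.inclusion hHT)
    (AddSubgroup.inclusion_injective hHT)
  have h1 : p ∣ Nat.card H := hLc ▸ AddSubgroup.card_dvd_of_le hLH
  have h2 : Nat.card H ∣ p ^ 2 := hTc ▸ AddSubgroup.card_dvd_of_le hHT
  obtain ⟨i, hi, hHi⟩ := (Nat.dvd_prime_pow hp).1 h2
  have hHeq : H = T := by
    apply AddSubgroup.eq_of_le_of_card_ge hHT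
    rw [hTc, hHi]
    have hi2 : i = 2 := by
      interval_cases i
      · rw [hHi, pow_zero] at h1
        exact absurd (Nat.dvd_one.1 h1) hp.one_lt.ne'
      · exfalso
        have : L = H := AddSubgroup.eq_of_le_of_card_ge hLH (by rw [hLc, hHi, pow_one])
        exact hxL (this ▸ hxH)
      · rfl
    rw [hi2]
  have hyH : y ∈ H := hHeq ▸ (hmemT y).2 hy
  obtain ⟨l, hl, z, hz, hlz⟩ := AddSubgroup.mem_sup.1 hyH
  obtain ⟨k, rfl⟩ := AddSubgroup.mem_zmultiples_iff.1 hz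
  obtain ⟨n, hn⟩ := Gen_zsmul_eq_nsmul hp hx k
  exact ⟨l, hl, n, by rw [← hlz, hn]⟩

/-- LEAF GN.  A group of prime order is generated by any nonzero element
(`zmultiples t = L` by `AddSubgroup.eq_of_le_of_card_ge` / `addOrderOf_eq_prime`, or
`isAddCyclic_of_prime_card` + `zmultiples_eq_top_of_prime_card`). -/
theorem exists_eq_nsmul {G : Type*} [AddCommGroup G] {p : ℕ} (hp : p.Prime) (L : AddSubgroup G)
    (hLc : Nat.card L = p) {t : G} (ht : t ∈ L) (ht0 : t ≠ 0) (y : G) (hy : y ∈ L) :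
    ∃ n : ℕ, y = n • t := by
  have : Fact p.Prime := ⟨hp⟩
  have h0 : (⟨t, ht⟩ : L) ≠ 0 := fun h => ht0 (congrArg Subtype.val h)
  have h1 : (⟨y, hy⟩ : L) ∈ AddSubmonoid.multiples (⟨t, ht⟩ : L) :=
    mem_multiples_of_prime_card hLc h0
  obtain ⟨n, hn⟩ := AddSubmonoid.mem_multiples_iff _ _ |>.1 h1
  exact ⟨n, by simpa using (congrArg Subtype.val hn).symm⟩

end Fermat.Agent.MR.E
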