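import Fermat.Agent.S44.ELocal.Concrete
import Fermat.Agent.MR.E.Gen

/-!
# MR / E : a Kummer extension of `K₁` contained in `K₁(E[p])` gives a `TresRam` datum
-/

set_option autoImplicit false

namespace Fermat.Agent.MR.E

open Fermat.Agent.S44 Fermat.Agent.S44.ELocal
open WeierstrassCurve WeierstrassCurve.Affine WeierstrassCurve.Affine.Point

theorem Kum_smul_nsmul {V : Type*} [AddCommGroup V] [DistribMulAction GQ V] (σ : GQ) (n : ℕ)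
    (y : V) : σ • (n • y) = n • (σ • y) :=
  (DistribSMul.toAddMonoidHom V σ).map_nsmul n y

theorem Kum_nsmul_congr {V : Type*} [AddCommGroup V] {p : ℕ} {t : V} (ht : p • t = 0) {m n : ℕ}
    (h : (m : ZMod p) = n) : m • t = n • t := by
  have key : ∀ m : ℕ, m • t = (m % p) • t := fun m => by
    conv_lhs => rw [← Nat.div_add_mod m p, add_nsmul, mul_nsmul, ht, smul_zero, zero_add]
  rw [ZMod.natCast_eq_natCast_iff'] at h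
  rw [key m, key n, h]

/-- the abstract form of `tresRam_of_moves`. -/
theorem Kum_abs {V : Type*} [AddCommGroup V] [DistribMulAction GQ V] {p : ℕ} (hp : p.Prime)
    (hcard : Nat.card {y : V // p • y = 0} = p ^ 2)
    (I₁ : Subgroup GQ) (L : AddSubgroup V) (hL : ∀ T ∈ L, p • T = 0) (hLc : Nat.card L = p)
    (hsub : ∀ σ ∈ I₁, ∀ x : V, p • x = 0 → σ • x - x ∈ L)
    (hfixL : ∀ σ ∈ I₁, ∀ T ∈ L, σ • T = T)
    {ζ : Qb} (hζ : IsPrimitiveRoot ζ p) (hζfix : ∀ σ ∈ I₁, σ ζ = ζ) {al : Qb} (hal0 : al ≠ 0)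
    (hfix : ∀ τ ∈ I₁, τ (al ^ p) = al ^ p)
    (hK : ∀ τ ∈ I₁, (∀ x : V, p • x = 0 → τ • x = x) → τ al = al)
    {σ₀ : GQ} (hσ₀ : σ₀ ∈ I₁) (hσ₀al : σ₀ al ≠ al) :
    ∃ x t : V, t ≠ 0 ∧ p • t = 0 ∧ p • x = 0 ∧
      ∀ σ ∈ I₁, ∃ c : ℕ, σ • x - x = c • t ∧ σ al = ζ ^ c * al := by
  have : Fact p.Prime := ⟨hp⟩
  have : NeZero p := ⟨hp.ne_zero⟩
  -- step 1
  obtain ⟨x, hx, hσ₀x⟩ : ∃ x : V, p • x = 0 ∧ σ₀ • x ≠ x := by
    by_contra hcon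
    push Not at hcon
    exact hσ₀al (hK σ₀ hσ₀ hcon)
  obtain ⟨t₀, ht₀def⟩ : ∃ t₀ : V, t₀ = σ₀ • x - x := ⟨_, rfl⟩
  have ht₀L : t₀ ∈ L := by rw [ht₀def]; exact hsub σ₀ hσ₀ x hx
  have ht₀0 : t₀ ≠ 0 := by
    rw [ht₀def]
    exact sub_ne_zero.mpr hσ₀x
  have hpt₀ : p • t₀ = 0 := hL t₀ ht₀L
  have hxL : x ∉ L := fun h => hσ₀x (hfixL σ₀ hσ₀ x h)
  -- step 2
  have hc : ∀ σ ∈ I₁, ∃ c : ℕ, σ • x - x = c • t₀ := fun σ hσ =>
    exists_eq_nsmul hp L hLc ht₀L ht₀0 _ (hsub σ hσ x hx)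
  have hd : ∀ σ ∈ I₁, ∃ d : ℕ, σ al = ζ ^ d * al := by
    intro σ hσ
    have h1 : (σ al / al) ^ p = 1 := by
      rw [div_pow, ← map_pow, hfix σ hσ, div_self (pow_ne_zero _ hal0)]
    obtain ⟨i, -, hi⟩ := hζ.eq_pow_of_pow_eq_one h1
    exact ⟨i, by rw [hi, div_mul_cancel₀ _ hal0]⟩
  obtain ⟨lam, hlam⟩ := hd σ₀ hσ₀
  have hlam0 : (lam : ZMod p) ≠ 0 := by
    intro h0
    rw [ZMod.natCast_eq_zero_iff] at h0
    apply hσ₀al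
    rw [hlam, (hζ.pow_eq_one_iff_dvd lam).2 h0, one_mul]
  -- step 3
  have hpowx : ∀ k : ℕ, σ₀ ^ k • x = x + k • t₀ := by
    intro k
    induction k with
    | zero => simp
    | succ k ih =>
      have e : σ₀ • x = x + t₀ := by rw [ht₀def]; abel
      rw [pow_succ, mul_smul, e, smul_add, ih, hfixL _ (I₁.pow_mem hσ₀ k) t₀ ht₀L, succ_nsmul]
      abel
  have hpowal : ∀ k : ℕ, (σ₀ ^ k) al = ζ ^ (k * lam) * al := by
    intro k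
    induction k with
    | zero => simp
    | succ k ih =>
      rw [pow_succ, AlgEquiv.mul_apply, hlam, map_mul, map_pow, hζfix _ (I₁.pow_mem hσ₀ k), ih,
        Nat.succ_mul, pow_add]
      ring
  have hrel : ∀ σ ∈ I₁, ∀ c d : ℕ, σ • x - x = c • t₀ → σ al = ζ ^ d * al →
      (d : ZMod p) = c * lam := by
    intro σ hσ c d hcσ hdσ
    have hσ' : σ * σ₀ ^ ((p - 1) * c) ∈ I₁ := I₁.mul_mem hσ (I₁.pow_mem hσ₀ _)
    have hpc : c + (p - 1) * c = p * c := by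
      obtain ⟨q, rfl⟩ : ∃ q, p = q + 1 := ⟨p - 1, (Nat.succ_pred_eq_of_pos hp.pos).symm⟩
      simp only [Nat.add_sub_cancel]
      ring
    have hx' : (σ * σ₀ ^ ((p - 1) * c)) • x = x := by
      have e : σ • x = x + c • t₀ := by rw [← hcσ]; abel
      rw [mul_smul, hpowx, smul_add, e, Kum_smul_nsmul σ, hfixL σ hσ t₀ ht₀L, add_assoc,
        ← add_nsmul, hpc, mul_nsmul, hpt₀, smul_zero, add_zero]
    have hall : ∀ y : V, p • y = 0 → (σ * σ₀ ^ ((p - 1) * c)) • y = y := by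
      intro y hy
      obtain ⟨l, hl, n, rfl⟩ := exists_eq_add_nsmul hp hcard L hL hLc hx hxL y hy
      rw [smul_add, hfixL _ hσ' l hl, Kum_smul_nsmul, hx']
    have hal' := hK _ hσ' hall
    rw [AlgEquiv.mul_apply, hpowal, map_mul, map_pow, hζfix σ hσ, hdσ, ← mul_assoc, ← pow_add] at hal'
    have h1 : ζ ^ ((p - 1) * c * lam + d) = 1 := mul_right_cancel₀ hal0 (by rw [hal', one_mul])
    rw [hζ.pow_eq_one_iff_dvd, ← ZMod.natCast_eq_zero_iff] at h1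
    have h2 : ((c + (p - 1) * c : ℕ) : ZMod p) = 0 := by
      rw [hpc]
      simp
    push_cast at h1 h2
    linear_combination h1 - (lam : ZMod p) * h2
  -- step 4
  obtain ⟨mu, hmu⟩ : ∃ mu : ℕ, (mu : ZMod p) = (lam : ZMod p)⁻¹ :=
    ⟨((lam : ZMod p)⁻¹).val, ZMod.natCast_zmod_val _⟩
  refine ⟨x, mu • t₀, ?_, ?_, hx, ?_⟩
  · intro h0
    apply ht₀0
    have : lam • (mu • t₀) = 1 • t₀ := by
      rw [← mul_nsmul]
      apply Kum_nsmul_congr hpt₀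
      push_cast
      rw [hmu, inv_mul_cancel₀ hlam0]
    rw [h0, smul_zero, one_nsmul] at this
    exact this.symm
  · rw [← mul_nsmul, mul_comm, mul_nsmul, hpt₀, smul_zero]
  · intro σ hσ
    obtain ⟨c, hcσ⟩ := hc σ hσ
    obtain ⟨d, hdσ⟩ := hd σ hσ
    refine ⟨d, ?_, hdσ⟩
    rw [hcσ, ← mul_nsmul]
    apply Kum_nsmul_congr hpt₀
    push_cast
    rw [hmu, hrel σ hσ c d hcσ hdσ]
    field_simp

/-- LEAF KM (~150 lines, elementary).  Notation `I₁ = {σ ∈ I | σ ζ = ζ}` (a subgroup).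
`L` from `h.main`.  Every `σ ∈ I₁` fixes `L` pointwise (`σ ζ = ζ ^ 1`, last clause of `h.main`).
1. By `hK`, `σ₀` moves some `x` with `p • x = 0`; `t₀ := σ₀ • x - x ∈ L`, `t₀ ≠ 0`, `x ∉ L`.
2. For `σ ∈ I₁`: `σ • x - x = c(σ) • t₀` (`exists_eq_nsmul`), `σ al = ζ ^ d(σ) * al`
   (`(σ al / al) ^ p = σ a / a = 1`, `IsPrimitiveRoot.eq_pow_of_pow_eq_one`); `al ≠ 0`.
   `λ := d(σ₀)`, `¬ p ∣ λ` (else `σ₀ al = al`).
3. By induction `σ₀ ^ k • x - x = k • t₀`, `(σ₀ ^ k) al = ζ ^ (k λ) * al`; for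
   `σ' := σ * σ₀ ^ ((p - 1) * c(σ))`: `σ' • x - x = (p c(σ)) • t₀ = 0`, so `σ'` fixes `x` and `L`,
   hence all `y` with `p • y = 0` (`exists_eq_add_nsmul`), hence `al` (`hK`); but
   `σ' al = ζ ^ (d(σ) + (p - 1) c(σ) λ) * al`, so `p ∣ d(σ) + (p - 1) c(σ) λ`
   (`IsPrimitiveRoot.pow_eq_one_iff_dvd`), i.e. `d(σ) ≡ λ c(σ) mod p`.
4. `μ` with `μ λ ≡ 1 mod p` (`Nat.exists_mul_mod_eq_one_of_coprime`), `t := μ • t₀`: `t ≠ 0`
   (`λ • t = t₀`), `σ • x - x = c(σ) • t₀ = d(σ) • t`.  The datum is `(ζ, al, x, t)` (as elements of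
   `Submodule.torsionBy`: `Submodule.mem_torsionBy_iff`, `natCast_zsmul`; the action on the subtype
   is the restriction: `Subtype.ext`, `rfl`). -/
theorem tresRam_of_moves (W' : Affine ℚ) (A : ValuationSubring Qb) {p : ℕ} (hp : p.Prime)
    (hcard : Nat.card {y : (W'⁄Qb).Point // p • y = 0} = p ^ 2) (h : LocalConcl W' A p)
    {ζ : Qb} (hζ : IsPrimitiveRoot ζ p) {a al : Qb} (ha0 : a ≠ 0)
    (hfix : ∀ τ ∈ A.inertiaSubgroupIn ℚ, τ a = a) (hal : al ^ p = a)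
    (hK : ∀ τ ∈ A.inertiaSubgroupIn ℚ, τ ζ = ζ →
      (∀ x : (W'⁄Qb).Point, p • x = 0 → τ • x = x) → τ al = al)
    {σ₀ : GQ} (hσ₀ : σ₀ ∈ A.inertiaSubgroupIn ℚ) (hσ₀ζ : σ₀ ζ = ζ) (hσ₀al : σ₀ al ≠ al)
    (hnb : ¬ ∃ b : Qb, (∀ σ ∈ A.inertiaSubgroupIn ℚ, σ ζ = ζ → σ b = b) ∧
      A.valuation (al ^ p) = A.valuation b ^ p) :
    TresRam A p (Submodule.torsionBy ℤ (W'⁄Qb).Point p) := by
  obtain ⟨L, hL, hLc, hsub, hact⟩ := h.main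
  have hal0 : al ≠ 0 := by
    rintro rfl
    rw [zero_pow hp.ne_zero] at hal
    exact ha0 hal.symm
  let I₁ : Subgroup GQ :=
    { carrier := {σ | σ ∈ A.inertiaSubgroupIn ℚ ∧ σ ζ = ζ}
      mul_mem' := fun {σ τ} hσ hτ =>
        ⟨(A.inertiaSubgroupIn ℚ).mul_mem hσ.1 hτ.1, by rw [AlgEquiv.mul_apply, hτ.2, hσ.2]⟩
      one_mem' := ⟨(A.inertiaSubgroupIn ℚ).one_mem, rfl⟩
      inv_mem' := fun {σ} hσ => ⟨(A.inertiaSubgroupIn ℚ).inv_mem hσ.1, by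
        have h1 : σ⁻¹ (σ ζ) = ζ := by
          rw [← AlgEquiv.mul_apply, inv_mul_cancel, AlgEquiv.one_apply]
        rwa [hσ.2] at h1⟩ }
  have hmem : ∀ σ : GQ, σ ∈ I₁ ↔ σ ∈ A.inertiaSubgroupIn ℚ ∧ σ ζ = ζ := fun σ => Iff.rfl
  obtain ⟨x, t, ht0, hpt, hpx, hc⟩ := Kum_abs (V := (W'⁄Qb).Point) hp hcard I₁ L hL hLc
    (fun σ hσ x hx => hsub σ hσ.1 x hx)
    (fun σ hσ T hT => by
      have := hact σ hσ.1 ζ 1 hζ (by rw [pow_one]; exact hσ.2) T hT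
      rwa [one_nsmul] at this)
    hζ (fun σ hσ => hσ.2) hal0
    (fun τ hτ => by rw [hal]; exact hfix τ hτ.1)
    (fun τ hτ hx => hK τ hτ.1 hτ.2 hx) (σ₀ := σ₀) ⟨hσ₀, hσ₀ζ⟩ hσ₀al
  have hxm : x ∈ Submodule.torsionBy ℤ (W'⁄Qb).Point p := by
    rw [Submodule.mem_torsionBy_iff, natCast_zsmul]
    exact hpx
  have htm : t ∈ Submodule.torsionBy ℤ (W'⁄Qb).Point p := by
    rw [Submodule.mem_torsionBy_iff, natCast_zsmul]
    exact hpt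
  refine ⟨ζ, al, ⟨x, hxm⟩, ⟨t, htm⟩, hζ, hal0, fun h0 => ht0 (congrArg Subtype.val h0),
    Subtype.ext hpt, Subtype.ext hpx, hnb, fun σ hσ hσζ => ?_⟩
  obtain ⟨c, h1, h2⟩ := hc σ ⟨hσ, hσζ⟩
  exact ⟨c, Subtype.ext h1, h2⟩

/-- assembled. -/
theorem exists_fixed_val (W' : Affine ℚ) (A : ValuationSubring Qb) {p : ℕ} (hp : p.Prime)
    (hcard : Nat.card {y : (W'⁄Qb).Point // p • y = 0} = p ^ 2) (h : LocalConcl W' A p)
    {ζ : Qb} (hζ : IsPrimitiveRoot ζ p) {a al : Qb} (ha0 : a ≠ 0)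
    (hfix : ∀ τ ∈ A.inertiaSubgroupIn ℚ, τ a = a) (hal : al ^ p = a)
    (hK : ∀ τ ∈ A.inertiaSubgroupIn ℚ, τ ζ = ζ →
      (∀ x : (W'⁄Qb).Point, p • x = 0 → τ • x = x) → τ al = al) :
    ∃ b : Qb, (∀ σ ∈ A.inertiaSubgroupIn ℚ, σ ζ = ζ → σ b = b) ∧
      A.valuation a = A.valuation b ^ p := by
  by_cases hc : ∀ σ ∈ A.inertiaSubgroupIn ℚ, σ ζ = ζ → σ al = al
  · exact ⟨al, hc, by rw [← hal, map_pow]⟩
  · push Not at hc
    obtain ⟨σ₀, hσ₀, hσ₀ζ, hσ₀al⟩ := hc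
    by_contra hnb
    rw [← hal] at hnb
    exact h.peu (tresRam_of_moves W' A hp hcard h hζ ha0 hfix hal hK hσ₀ hσ₀ζ hσ₀al hnb)

end Fermat.Agent.MR.E
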