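import Fermat.Agent.MR.E.Base
import Fermat.Agent.MR.E.E1
import Fermat.Agent.MR.E.Cyc
import Fermat.Agent.MR.E.Kum

/-!
# MR / E : the elliptic side of S44 (what GLUE / PLC / TOP consume)

`P` a Frey package, `p = P.p`, `Ep P = E(ℚ̄)[p]` with the Prelude action of `GQ`.

* `card_Ep`  : `#E[p] = p²`;
* `E_GLOB`   : `σ² - a_ℓ σ + ℓ = 0` on `E[p]` for every Frobenius `σ` at `ℓ ∉ S` (`S` finite);
* `E_LOC`    : `S44.ELocal.LocalConcl` (line `L`, inertia acts by `χ` on `L`, trivially on `E[p]/L`,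
               peu ramifiée);
* `exists_tau` : some `τ ∈ I` has `χ(τ) ≠ 1`;
* `E1`       : `I` does not act on `E[p]` through the scalar `χ`;
* `E2`       : `a ∈ K₀ˣ`, `K₁(a^{1/p}) ⊆ K₁(E[p])` ⟹ `p ∣ v(a)`.
-/

set_option autoImplicit false

namespace Fermat.Agent.MR.E

open Fermat.Agent.S44 Fermat.Agent.S44.ELocal
open WeierstrassCurve WeierstrassCurve.Affine WeierstrassCurve.Affine.Point

/-- **(E2)**, valuation form. -/
theorem E2_val (P : FreyPackage) (A : ValuationSubring Qb) (hA : A.LiesOverPrime P.p)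
    (hdvd : (P.p : ℤ) ∣ P.a * P.b * P.c) {a al : Qb} (ha0 : a ≠ 0)
    (hfix : ∀ τ ∈ A.inertiaSubgroupIn ℚ, τ a = a) (hal : al ^ P.p = a)
    (hK : ∀ τ ∈ A.inertiaSubgroupIn ℚ, (∀ z : Qb, z ^ P.p = 1 → τ z = z) →
      (∀ x : Ep P, τ • x = x) → τ al = al) :
    ∃ n : ℤ, A.valuation a = A.valuation (P.p : Qb) ^ ((P.p : ℤ) * n) := by
  have : NeZero P.p := ⟨P.pp.ne_zero⟩
  obtain ⟨ζ, hζ⟩ := HasEnoughRootsOfUnity.exists_primitiveRoot Qb P.p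
  have hK' : ∀ τ ∈ A.inertiaSubgroupIn ℚ, τ ζ = ζ →
      (∀ x : (P.freyCurve⁄Qb).Point, P.p • x = 0 → τ • x = x) → τ al = al := by
    intro τ hτ hτζ hx
    refine hK τ hτ ?_ ?_
    · intro z hz
      obtain ⟨i, -, rfl⟩ := hζ.eq_pow_of_pow_eq_one hz
      rw [map_pow, hτζ]
    · intro x
      exact Subtype.ext (hx x (Ep_nsmul P x))
  obtain ⟨b, hb, hab⟩ := exists_fixed_val P.freyCurve A P.pp (card_Ep' P) (E_LOC P A hA hdvd) hζ
    ha0 hfix hal hK'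
  exact val_eq_zpow_of_pow A P.pp hA hζ ha0 hfix hb hab

/-- **(E2)**, in the shape of report 321. -/
theorem E2 (P : FreyPackage) (A : ValuationSubring Qb) (hA : A.LiesOverPrime P.p)
    (hdvd : (P.p : ℤ) ∣ P.a * P.b * P.c) {a al : Qb} (ha0 : a ≠ 0)
    (hfix : ∀ τ ∈ A.inertiaSubgroupIn ℚ, τ a = a) (hal : al ^ P.p = a)
    (hK : ∀ τ ∈ A.inertiaSubgroupIn ℚ, (∀ z : Qb, z ^ P.p = 1 → τ z = z) →
      (∀ x : Ep P, τ • x = x) → τ al = al) :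
    ∃ n : ℤ, a / (P.p : Qb) ^ ((P.p : ℤ) * n) ∈ A ∧ (a / (P.p : Qb) ^ ((P.p : ℤ) * n))⁻¹ ∈ A := by
  obtain ⟨n, hn⟩ := E2_val P A hA hdvd ha0 hfix hal hK
  have hp0 : A.valuation (P.p : Qb) ≠ 0 := by
    rw [Ne, map_eq_zero]
    exact_mod_cast P.pp.ne_zero
  have h1 : A.valuation (a / (P.p : Qb) ^ ((P.p : ℤ) * n)) = 1 := by
    rw [map_div₀, map_zpow₀, hn]
    exact div_self (zpow_ne_zero _ hp0)
  refine ⟨n, ?_, ?_⟩
  · rw [← A.valuation_le_one_iff, h1]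
  · rw [← A.valuation_le_one_iff, map_inv₀, h1, inv_one]

end Fermat.Agent.MR.E
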