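import Fermat.Agent.S44.Defs
import Fermat.Agent.S44.ELocal.Roots
import Fermat.Agent.S36R.K0.BlockL

/-!
# MR / E : the value group of `K₁ = K₀(ζ_p)` (norm argument)
-/

set_option autoImplicit false

namespace Fermat.Agent.MR.E

open Fermat.Agent.S44 Fermat.Agent.S36R

variable (A : ValuationSubring Qb) {p : ℕ} (hp : p.Prime) (hA : A.LiesOverPrime p)

include hp hA

/-- LEAF CY-B.  `O :=` the orbit of `b` under `I`, a finite set (contained in the roots of
`minpoly ℚ b`); `N := ∏ y ∈ O, y` is fixed by `I` (each `τ ∈ I` permutes `O`), `v y = v b` on `O`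
(`K0L.inertia_valuation`), so `v N = v b ^ #O`, and `v N = v p ^ m` by `K0L.exists_zpow'`.
`#O < p`: choose `τ_y ∈ I` with `y = τ_y b`; `y ↦ τ_y ζ` is injective (`τ_y ζ = τ_z ζ` ⟹
`τ_y⁻¹ τ_z` fixes `ζ`, hence `b`) with values in `primitiveRoots p Qb`, of cardinality
`φ(p) = p - 1` (`IsPrimitiveRoot.card_primitiveRoots`, `Nat.totient_prime`). -/
theorem exists_pow_val_eq {ζ : Qb} (hζ : IsPrimitiveRoot ζ p) {b : Qb} (hb0 : b ≠ 0)
    (hb : ∀ σ ∈ A.inertiaSubgroupIn ℚ, σ ζ = ζ → σ b = b) :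
    ∃ r : ℕ, 0 < r ∧ r < p ∧ ∃ m : ℤ, A.valuation b ^ r = A.valuation (p : Qb) ^ m := by
  classical
  have hfin : {y : Qb | ∃ τ ∈ A.inertiaSubgroupIn ℚ, τ b = y}.Finite := by
    refine ((minpoly ℚ b).rootSet_finite Qb).subset ?_
    rintro _ ⟨τ, -, rfl⟩
    have hint : IsIntegral ℚ b := Algebra.IsIntegral.isIntegral b
    rw [Polynomial.mem_rootSet]
    refine ⟨minpoly.ne_zero hint, ?_⟩
    have h1 := Polynomial.aeval_algHom_apply (τ : Qb →ₐ[ℚ] Qb) b (minpoly ℚ b)
    rw [minpoly.aeval, map_zero] at h1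
    exact h1
  set O : Finset Qb := hfin.toFinset with hO
  have hmem : ∀ y, y ∈ O ↔ ∃ τ ∈ A.inertiaSubgroupIn ℚ, τ b = y := fun y => by
    rw [hO, Set.Finite.mem_toFinset]
    rfl
  have hbO : b ∈ O := (hmem b).2 ⟨1, one_mem _, rfl⟩
  have hne : ∀ y ∈ O, y ≠ 0 := by
    intro y hy
    obtain ⟨τ, -, rfl⟩ := (hmem y).1 hy
    exact (map_ne_zero τ).2 hb0
  have hN0 : ∏ y ∈ O, y ≠ 0 := Finset.prod_ne_zero_iff.2 hne
  have hNfix : ∏ y ∈ O, y ∈ IntermediateField.fixedField (A.inertiaSubgroupIn ℚ) := by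
    rw [IntermediateField.mem_fixedField_iff]
    intro τ hτ
    have himg : O.image τ = O := by
      apply Finset.eq_of_subset_of_card_le
      · intro z hz
        obtain ⟨y, hy, rfl⟩ := Finset.mem_image.1 hz
        obtain ⟨σ, hσ, rfl⟩ := (hmem y).1 hy
        exact (hmem _).2 ⟨τ * σ, mul_mem hτ hσ, rfl⟩
      · rw [Finset.card_image_of_injective _ τ.injective]
    rw [map_prod]
    conv_rhs => rw [← himg]
    rw [Finset.prod_image fun x _ y _ h => τ.injective h]
  obtain ⟨m, hm⟩ := K0L.exists_zpow' A hp hA hNfix hN0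
  have hval : A.valuation (∏ y ∈ O, y) = A.valuation b ^ O.card := by
    rw [map_prod, Finset.prod_congr rfl (g := fun _ => A.valuation b), Finset.prod_const]
    intro y hy
    obtain ⟨τ, hτ, rfl⟩ := (hmem y).1 hy
    exact K0L.inertia_valuation A hp hA hτ b
  refine ⟨O.card, Finset.card_pos.2 ⟨b, hbO⟩, ?_, m, by rw [← hval, hm]⟩
  have hch : ∀ y ∈ O, ∃ τ ∈ A.inertiaSubgroupIn ℚ, τ b = y := fun y hy => (hmem y).1 hy
  choose! τ hτI hτb using hch
  have hcard : O.card ≤ (primitiveRoots p Qb).card := by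
    refine Finset.card_le_card_of_injOn (fun y => τ y ζ) ?_ ?_
    · intro y _
      exact (mem_primitiveRoots hp.pos).2 (hζ.map_of_injective (τ y).injective)
    · intro y hy z hz hyz
      have hyz' : τ y ζ = τ z ζ := hyz
      have h1 : ((τ y)⁻¹ * τ z) ζ = ζ := by
        rw [AlgEquiv.mul_apply, ← hyz']
        exact (τ y).symm_apply_apply ζ
      have h2 := hb _ (mul_mem (inv_mem (hτI y hy)) (hτI z hz)) h1
      rw [AlgEquiv.mul_apply, hτb z hz] at h2
      have h3 : τ y ((τ y)⁻¹ z) = z := (τ y).apply_symm_apply z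
      rw [h2, hτb y hy] at h3
      exact h3
  rw [hζ.card_primitiveRoots, Nat.totient_prime hp] at hcard
  have := hp.pos
  omega

end Fermat.Agent.MR.E
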