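import Fermat.Agent.MR.E.Contract
import Fermat.Agent.MR.Interface

/-!
# MR / E : `EStatement` of `MR/Interface.lean` from the contract of the block E.
-/

set_option autoImplicit false

namespace Fermat.Agent.MR

/-- **(E)** in the shape of `MR/Interface.lean`. -/
theorem eStatement : EStatement := by
  intro P hdvd A hA
  refine ⟨?_, ?_⟩
  · intro H
    refine E.E1 P A hA hdvd ?_
    intro τ hτ ζ c hζ hτζ x
    refine H τ hτ c ?_ x (AddSubgroup.mem_top x)
    intro μ hμ
    have : NeZero P.p := ⟨P.pp.ne_zero⟩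
    obtain ⟨i, -, rfl⟩ := hζ.eq_pow_of_pow_eq_one hμ
    rw [map_pow, hτζ, ← pow_mul, ← pow_mul, mul_comm]
  · intro a α ha0 hfix hal hK
    refine E.E2_val P A hA hdvd ha0 hfix hal ?_
    intro τ hτ hμ hx
    exact hK τ hτ hμ (fun x _ => hx x)

end Fermat.Agent.MR
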